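import Fermat.Agent.S18.RED3889.Normalize

/-!
# S18, package RED, R2 (helper3889): chart-integral series are admissible and integral

* `isIntegral_gen_of_isIntFin_R2`, `isIntegral_red_of_isIntFin_R2`, `isIntegral_gen_of_isIntInf_R2`,
  `isIntegral_red_of_isIntInf_R2`: the four integrality statements of R2 of the frozen `Red.lean`,
  VERBATIM and unconditional.
* `isChartInt_mem_Adm_of_red`: `IsChartInt.mem_Adm` of the frozen `Red.lean`, reduced to the single
  statement `hred` that the reductions of the `ℤ_(ℓ)`-integral `q`-expansions of the overlap chart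
  `A_mid` lie in the special function field `Ft A N` (this is where the degree count R5 enters).
-/

set_option autoImplicit false

noncomputable section

namespace Fermat.Agent.S18.RED3889

open ModularCurve ModularCurve.IgusaScheme Fermat.Agent.S28 Fermat.Agent.S28.QRed
  Fermat.Agent.S18.RED1249 Polynomial

variable {ℓ : ℕ} [Fact ℓ.Prime] {A : ValuationSubring (AlgebraicClosure ℚ)} {N : ℕ} [NeZero N]

set_option quotPrecheck false in
local notation "Rl" => ↥(GaloisRep.ratLocalizedAt ℓ)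

set_option quotPrecheck false in
local notation "FF" => ↥(modularFunctionFieldFull N)

set_option quotPrecheck false in
local notation "Qb" => AlgebraicClosure ℚ

set_option quotPrecheck false in
local notation "kA" => IsLocalRing.ResidueField A

/-! ### Generalities -/

theorem smul_laurent_eq (a : A) (w : LaurentSeries Qb) :
    a • w = algebraMap Qb (LaurentSeries Qb) (a : Qb) * w := by
  rw [algebraMap_laurentSeries_eq_single]
  ext n
  rw [HahnSeries.coeff_single_zero_mul]
  rfl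

omit [Fact ℓ.Prime] [NeZero N] in
/-- The chart span lies in the generic function field. -/
theorem chartSpan_le_Fb (S : Set FF) {w : LaurentSeries Qb} (hw : w ∈ chartSpan ℓ A N S) :
    w ∈ Fb N := by
  induction hw using Submodule.span_induction with
  | mem w hw =>
    obtain ⟨x, rfl⟩ := hw
    exact coeffEmb_mem_laurentBaseChange _ (x : FF).2
  | zero => exact zero_mem _
  | add u v _ _ hu hv => exact add_mem hu hv
  | smul a u _ hu =>
    rw [smul_laurent_eq]
    exact mul_mem ((Fb N).algebraMap_mem _) hu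

theorem chartSpan_mono {S S' : Set FF} (h : S ⊆ S') :
    chartSpan ℓ A N S ≤ chartSpan ℓ A N S' := by
  apply Submodule.span_mono
  rintro _ ⟨x, rfl⟩
  exact ⟨⟨(x : FF), chartAlg_mono N ℓ h x.2⟩, rfl⟩

/-- integrality can be tested after embedding a subfield into the ambient ring. -/
theorem isIntegralElem_of_val {K E : Type*} [Field K] [Field E] [Algebra K E]
    (F : IntermediateField K E) {B : Type*} [CommRing B] (φ : B →+* F) (g : F)
    (h : (F.val.toRingHom.comp φ).IsIntegralElem (g : E)) : φ.IsIntegralElem g := by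
  obtain ⟨p, hp, hpx⟩ := h
  refine ⟨p, hp, Subtype.val_injective ?_⟩
  have h1 := Polynomial.hom_eval₂ p φ F.val.toRingHom g
  change F.val.toRingHom (eval₂ φ g p) = F.val.toRingHom 0
  rw [map_zero]
  exact h1.trans hpx

/-! ### Integrality of the generic fibre -/

/-- `ℚ(X₀(N)) → ℚ̄(X₀(N))`. -/
def thetaFb : FF →+* Fb N :=
  RingHom.codRestrict ((coeffEmb Qb).comp (valF N)) (Fb N)
    (fun x => coeffEmb_mem_laurentBaseChange _ x.2)

omit [NeZero N] in
theorem coe_thetaFb (x : FF) :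
    ((thetaFb (N := N) x : Fb N) : LaurentSeries Qb) = coeffEmb Qb (x : LaurentSeries ℚ) := rfl

theorem coeffEmb_algebraMap (c : ℚ) :
    coeffEmb Qb (algebraMap ℚ (LaurentSeries ℚ) c) =
      algebraMap Qb (LaurentSeries Qb) (algebraMap ℚ Qb c) := by
  rw [algebraMap_laurentSeries_eq_single, algebraMap_laurentSeries_eq_single, coeffEmb,
    coeffMap_single]

theorem isIntegralElem_thetaFb (t : FF) (tb : Fb N)
    (htb : (tb : LaurentSeries Qb) = coeffEmb Qb (t : LaurentSeries ℚ)) (x : FF)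
    (hx : x ∈ chartAlg N ℓ {t}) :
    ((aeval tb : Qb[X] →ₐ[Qb] Fb N) : Qb[X] →+* Fb N).IsIntegralElem (thetaFb x) := by
  have hx' : (evF N ℓ t).IsIntegralElem x :=
    (isIntegral_adjoin_singleton_iff t x).mp ((mem_chartAlg_iff N ℓ).mp hx)
  obtain ⟨p, hp, hpx⟩ := hx'
  let c : Rl →+* Qb := (algebraMap ℚ Qb).comp (GaloisRep.ratLocalizedAt ℓ).subtype
  have hcomp : ((aeval tb : Qb[X] →ₐ[Qb] Fb N) : Qb[X] →+* Fb N).comp (mapRingHom c) =
      (thetaFb (N := N)).comp (evF N ℓ t) := by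
    apply Polynomial.ringHom_ext
    · intro a
      apply Subtype.ext
      simp only [RingHom.comp_apply, coe_mapRingHom, map_C, RingHom.coe_coe, aeval_C, evF_C]
      rw [coe_thetaFb]
      have h1 : ((algebraMap Rl FF a : FF) : LaurentSeries ℚ) =
          algebraMap ℚ (LaurentSeries ℚ) (a : ℚ) := valF_algebraMap N ℓ a
      rw [h1, coeffEmb_algebraMap]
      rfl
    · apply Subtype.ext
      simp only [RingHom.comp_apply, coe_mapRingHom, map_X, RingHom.coe_coe, aeval_X, evF_X]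
      rw [coe_thetaFb, htb]
  refine ⟨p.map (mapRingHom c), hp.map _, ?_⟩
  rw [eval₂_map, hcomp, ← Polynomial.hom_eval₂, hpx, map_zero]

/-- Integrality of the generic fibre of a series integral for the chart `{t}`. -/
theorem isIntegral_gen_of_isChartInt (t : FF) (tb : Fb N)
    (htb : (tb : LaurentSeries Qb) = coeffEmb Qb (t : LaurentSeries ℚ))
    (y : Adm A (Fb N) (Ft A N)) (hy : IsChartInt ℓ A N {t} (y : LaurentSeries A)) :
    IsIntegral (Algebra.adjoin Qb {tb}) (genOf A (Fb N) (Ft A N) y) := by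
  rw [isIntegral_adjoin_singleton_iff]
  have key : ∀ w ∈ chartSpan ℓ A N {t}, ∃ g : Fb N, (g : LaurentSeries Qb) = w ∧
      ((aeval tb : Qb[X] →ₐ[Qb] Fb N) : Qb[X] →+* Fb N).IsIntegralElem g := by
    intro w hw
    induction hw using Submodule.span_induction with
    | mem w hw =>
      obtain ⟨x, rfl⟩ := hw
      exact ⟨thetaFb (x : FF), rfl, isIntegralElem_thetaFb t tb htb _ x.2⟩
    | zero => exact ⟨0, rfl, RingHom.isIntegralElem_zero _⟩
    | add u v _ _ hu hv =>
      obtain ⟨g₁, rfl, h₁⟩ := hu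
      obtain ⟨g₂, rfl, h₂⟩ := hv
      exact ⟨g₁ + g₂, rfl, RingHom.IsIntegralElem.add _ h₁ h₂⟩
    | smul a u _ hu =>
      obtain ⟨g₁, rfl, h₁⟩ := hu
      refine ⟨algebraMap Qb (Fb N) (a : Qb) * g₁, ?_, ?_⟩
      · rw [smul_laurent_eq]
        rfl
      · have h2 : algebraMap Qb (Fb N) (a : Qb) =
            ((aeval tb : Qb[X] →ₐ[Qb] Fb N) : Qb[X] →+* Fb N) (C (a : Qb)) := by
          simp
        rw [h2]
        exact RingHom.IsIntegralElem.mul _ (RingHom.isIntegralElem_map _) h₁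
  obtain ⟨g, hg, hint⟩ := key _ hy
  have : g = genOf A (Fb N) (Ft A N) y := Subtype.ext hg
  rw [← this]
  exact hint

/-! ### Integrality of the reduction -/

/-- The reduction of the `q`-expansion of a chart element, over the residue field of `A`. -/
def ThetaK (hA : A.LiesOverPrime ℓ) (S : Set FF)
    (hS : ∀ s ∈ S, ∃ a : LaurentSeries Rl, iota ℓ a = valF N s) :
    chartAlg N ℓ S →+* LaurentSeries kA :=
  (coeffMap (psiA ℓ A hA)).comp ((red ℓ).comp (qExpChart ℓ N S hS))

theorem ThetaK_apply (hA : A.LiesOverPrime ℓ) (S : Set FF)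
    (hS : ∀ s ∈ S, ∃ a : LaurentSeries Rl, iota ℓ a = valF N s) (x : chartAlg N ℓ S) :
    ThetaK hA S hS x = coeffMap (psiA ℓ A hA) (red ℓ (qExpChart ℓ N S hS x)) := rfl

theorem ThetaK_algebraMap (hA : A.LiesOverPrime ℓ) (S : Set FF)
    (hS : ∀ s ∈ S, ∃ a : LaurentSeries Rl, iota ℓ a = valF N s) (a : Rl) :
    ThetaK hA S hS (algebraMap Rl (chartAlg N ℓ S) a) =
      algebraMap kA (LaurentSeries kA) (psiA ℓ A hA (rho0 ℓ a)) := by
  rw [ThetaK_apply, qExpChart_algebraMap, algebraMap_laurentSeries_eq_single, HahnSeries.C_apply,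
    red, coeffMap_single, coeffMap_single]

theorem isIntegralElem_ThetaK (hA : A.LiesOverPrime ℓ) (t : FF)
    (hS : ∀ s ∈ ({t} : Set FF), ∃ a : LaurentSeries Rl, iota ℓ a = valF N s)
    (x : chartAlg N ℓ {t}) :
    ((aeval (ThetaK hA {t} hS ⟨t, subset_chartAlg N ℓ _ rfl⟩) :
        kA[X] →ₐ[kA] LaurentSeries kA) : kA[X] →+* LaurentSeries kA).IsIntegralElem
      (ThetaK hA {t} hS x) := by
  set t' : chartAlg N ℓ {t} := ⟨t, subset_chartAlg N ℓ _ rfl⟩ with ht'
  have hx' : (evF N ℓ t).IsIntegralElem (x : FF) :=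
    (isIntegral_adjoin_singleton_iff t (x : FF)).mp ((mem_chartAlg_iff N ℓ).mp x.2)
  obtain ⟨p, hp, hpx⟩ := hx'
  let ev' : Rl[X] →+* chartAlg N ℓ {t} :=
    ((aeval t' : Rl[X] →ₐ[Rl] chartAlg N ℓ {t}) : Rl[X] →+* chartAlg N ℓ {t})
  have hval : ((chartAlg N ℓ {t}).val : chartAlg N ℓ {t} →+* FF).comp ev' = evF N ℓ t := by
    apply Polynomial.ringHom_ext
    · intro a
      simp [ev', evF]
    · simp [ev', evF, ht']
  have hpx' : eval₂ ev' x p = 0 := by
    apply Subtype.val_injective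
    have h1 := Polynomial.hom_eval₂ p ev' ((chartAlg N ℓ {t}).val : chartAlg N ℓ {t} →+* FF) x
    rw [hval] at h1
    have h2 : ((chartAlg N ℓ {t}).val : chartAlg N ℓ {t} →+* FF) x = (x : FF) := rfl
    rw [h2, hpx] at h1
    exact h1
  let c : Rl →+* kA := (psiA ℓ A hA).comp (rho0 ℓ)
  have hcomp : ((aeval (ThetaK hA {t} hS t') : kA[X] →ₐ[kA] LaurentSeries kA) :
        kA[X] →+* LaurentSeries kA).comp (mapRingHom c) = (ThetaK hA {t} hS).comp ev' := by
    apply Polynomial.ringHom_ext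
    · intro a
      simp only [RingHom.comp_apply, coe_mapRingHom, map_C, RingHom.coe_coe, aeval_C, ev']
      rw [ThetaK_algebraMap]
      rfl
    · simp only [RingHom.comp_apply, coe_mapRingHom, map_X, RingHom.coe_coe, aeval_X, ev']
  refine ⟨p.map (mapRingHom c), hp.map _, ?_⟩
  rw [eval₂_map, hcomp, ← Polynomial.hom_eval₂, hpx', map_zero]

/-- Integrality of the reduction of a series integral for the chart `{t}`. -/
theorem isIntegral_red_of_isChartInt (hA : A.LiesOverPrime ℓ) (t : FF)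
    (hS : ∀ s ∈ ({t} : Set FF), ∃ a : LaurentSeries Rl, iota ℓ a = valF N s)
    (tt : Ft A N)
    (htt : (tt : LaurentSeries kA) = ThetaK hA {t} hS ⟨t, subset_chartAlg N ℓ _ rfl⟩)
    (y : Adm A (Fb N) (Ft A N)) (hy : IsChartInt ℓ A N {t} (y : LaurentSeries A)) :
    IsIntegral (Algebra.adjoin kA {tt}) (redOf A (Fb N) (Ft A N) y) := by
  rw [isIntegral_adjoin_singleton_iff]
  apply isIntegralElem_of_val
  have hφ : ((Ft A N).val.toRingHom.comp
      ((aeval tt : kA[X] →ₐ[kA] Ft A N) : kA[X] →+* Ft A N)) =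
      ((aeval (ThetaK hA {t} hS ⟨t, subset_chartAlg N ℓ _ rfl⟩) :
        kA[X] →ₐ[kA] LaurentSeries kA) : kA[X] →+* LaurentSeries kA) := by
    apply Polynomial.ringHom_ext
    · intro a
      simp
    · simp [htt]
  rw [hφ]
  have hmem := coeffMap_residue_mem_span (rho0 ℓ) A (phiA ℓ A hA) (psiA ℓ A hA)
    (residue_comp_phiA ℓ A hA) (qM ℓ N {t} hS) (y : LaurentSeries A)
    ((isChartInt_iff_mem_spanA hA {t} hS _).mp hy)
  have key : ∀ w ∈ Submodule.span kA ((fun x => coeffMap (psiA ℓ A hA) (coeffMap (rho0 ℓ) x)) ''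
      (qM ℓ N {t} hS : Set (LaurentSeries Rl))),
      ((aeval (ThetaK hA {t} hS ⟨t, subset_chartAlg N ℓ _ rfl⟩) :
        kA[X] →ₐ[kA] LaurentSeries kA) : kA[X] →+* LaurentSeries kA).IsIntegralElem w := by
    intro w hw
    induction hw using Submodule.span_induction with
    | mem w hw =>
      obtain ⟨_, ⟨x, rfl⟩, rfl⟩ := hw
      exact isIntegralElem_ThetaK hA t hS x
    | zero => exact RingHom.isIntegralElem_zero _
    | add u v _ _ hu hv => exact RingHom.IsIntegralElem.add _ hu hv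
    | smul a u _ hu =>
      have h2 : a • u = ((aeval (ThetaK hA {t} hS ⟨t, subset_chartAlg N ℓ _ rfl⟩) :
          kA[X] →ₐ[kA] LaurentSeries kA) : kA[X] →+* LaurentSeries kA) (C a) * u := by
        rw [RingHom.coe_coe, aeval_C, algebraMap_laurentSeries_eq_single]
        ext n
        rw [HahnSeries.coeff_single_zero_mul]
        rfl
      rw [h2]
      exact RingHom.IsIntegralElem.mul _ (RingHom.isIntegralElem_map _) hu
  exact key _ hmem

/-! ### The four integrality statements of R2 (frozen `Red.lean`, verbatim) -/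

theorem ThetaK_jFull (hA : A.LiesOverPrime ℓ) :
    ThetaK hA {jFull N} (hS_fin ℓ N) ⟨jFull N, subset_chartAlg N ℓ _ rfl⟩ = jqModC kA := by
  rw [ThetaK_apply]
  have h1 : qExpChart ℓ N {jFull N} (hS_fin ℓ N) ⟨jFull N, subset_chartAlg N ℓ _ rfl⟩ =
      jqModC Rl := qExpFin_jChartFin ℓ N
  rw [h1, red_jqModC, _root_.ModularCurve.coeffMap_jqModC]

theorem ThetaK_jFull_inv (hA : A.LiesOverPrime ℓ) :
    ThetaK hA {(jFull N)⁻¹} (hS_inf ℓ N) ⟨(jFull N)⁻¹, subset_chartAlg N ℓ _ rfl⟩ =
      (jqModC kA)⁻¹ := by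
  set x : chartAlg N ℓ {(jFull N)⁻¹} := ⟨(jFull N)⁻¹, subset_chartAlg N ℓ _ rfl⟩ with hx
  have h1 : qExpChart ℓ N {(jFull N)⁻¹} (hS_inf ℓ N) x * jqModC Rl = 1 := by
    apply iota_injective ℓ
    rw [map_mul, iota_qExpChart, iota_jqModC, map_one, ← valF_jFull N, ← map_mul, hx]
    show valF N ((jFull N)⁻¹ * jFull N) = 1
    rw [inv_mul_cancel₀ (jFull_ne_zero N), map_one]
  have h2 : ThetaK hA {(jFull N)⁻¹} (hS_inf ℓ N) x * jqModC kA = 1 := by
    have h3 := congrArg (fun z => coeffMap (psiA ℓ A hA) (red ℓ z)) h1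
    simp only [map_mul, map_one] at h3
    rw [red_jqModC, _root_.ModularCurve.coeffMap_jqModC] at h3
    exact h3
  exact eq_inv_of_mul_eq_one_left h2

/-- **R2** (`Fermat.Agent.S18.isIntegral_gen_of_isIntFin` of the frozen `Red.lean`). -/
theorem isIntegral_gen_of_isIntFin_R2 (hℓN : ¬ ℓ ∣ N) (hA : A.LiesOverPrime ℓ)
    (y : Adm A (Fb N) (Ft A N)) (hy : IsIntFin ℓ A N (y : LaurentSeries A)) :
    IsIntegral (Algebra.adjoin (AlgebraicClosure ℚ) {jb N}) (genOf A (Fb N) (Ft A N) y) :=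
  isIntegral_gen_of_isChartInt (jFull N) (jb N) rfl y hy

/-- **R2** (`Fermat.Agent.S18.isIntegral_red_of_isIntFin` of the frozen `Red.lean`). -/
theorem isIntegral_red_of_isIntFin_R2 (hℓN : ¬ ℓ ∣ N) (hA : A.LiesOverPrime ℓ)
    (y : Adm A (Fb N) (Ft A N)) (hy : IsIntFin ℓ A N (y : LaurentSeries A)) :
    IsIntegral (Algebra.adjoin (IsLocalRing.ResidueField A) {jt A N}) (redOf A (Fb N) (Ft A N) y) :=
  isIntegral_red_of_isChartInt hA (jFull N) (hS_fin ℓ N) (jt A N) (ThetaK_jFull hA).symm y hy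

/-- **R2** (`Fermat.Agent.S18.isIntegral_gen_of_isIntInf` of the frozen `Red.lean`). -/
theorem isIntegral_gen_of_isIntInf_R2 (hℓN : ¬ ℓ ∣ N) (hA : A.LiesOverPrime ℓ)
    (y : Adm A (Fb N) (Ft A N)) (hy : IsIntInf ℓ A N (y : LaurentSeries A)) :
    IsIntegral (Algebra.adjoin (AlgebraicClosure ℚ) {(jb N)⁻¹}) (genOf A (Fb N) (Ft A N) y) := by
  refine isIntegral_gen_of_isChartInt (jFull N)⁻¹ (jb N)⁻¹ ?_ y hy
  show ((jb N : Fb N) : LaurentSeries Qb)⁻¹ = coeffEmb Qb (((jFull N : FF) : LaurentSeries ℚ)⁻¹)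
  rw [map_inv₀]
  rfl

/-- **R2** (`Fermat.Agent.S18.isIntegral_red_of_isIntInf` of the frozen `Red.lean`). -/
theorem isIntegral_red_of_isIntInf_R2 (hℓN : ¬ ℓ ∣ N) (hA : A.LiesOverPrime ℓ)
    (y : Adm A (Fb N) (Ft A N)) (hy : IsIntInf ℓ A N (y : LaurentSeries A)) :
    IsIntegral (Algebra.adjoin (IsLocalRing.ResidueField A) {(jt A N)⁻¹})
      (redOf A (Fb N) (Ft A N) y) :=
  isIntegral_red_of_isChartInt hA (jFull N)⁻¹ (hS_inf ℓ N) (jt A N)⁻¹
    (ThetaK_jFull_inv hA).symm y hy

/-! ### Admissibility, reduced to "the reductions of the overlap chart lie in `Ft`" -/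

/-- Coefficientwise extension of scalars maps the special function field over `k₀` into the one
over `k`. -/
theorem coeffMap_mem_fullC {k₀ k : Type*} [Field k₀] [Field k] (φ : k₀ →+* k) (M : ℕ)
    {x : LaurentSeries k₀} (hx : x ∈ modularFunctionFieldFullC k₀ M) :
    coeffMap φ x ∈ modularFunctionFieldFullC k M := by
  rw [modularFunctionFieldFullC] at hx
  induction hx using IntermediateField.adjoin_induction with
  | mem x hx =>
    obtain ⟨d, hd0, hd, rfl⟩ := hx
    rw [_root_.ModularCurve.coeffMap_qExpand, _root_.ModularCurve.coeffMap_jqModC]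
    exact jqModCd_mem_full k M hd
  | algebraMap c =>
    rw [algebraMap_laurentSeries_eq_single, coeffMap_single, ← algebraMap_laurentSeries_eq_single]
    exact (modularFunctionFieldFullC k M).algebraMap_mem _
  | add x y _ _ hx hy => rw [map_add]; exact add_mem hx hy
  | inv x _ hx => rw [map_inv₀]; exact inv_mem hx
  | mul x y _ _ hx hy => rw [map_mul]; exact mul_mem hx hy

/-- **R2, admissibility** (`Fermat.Agent.S18.IsChartInt.mem_Adm` of the frozen `Red.lean`),
assuming that the reductions of the overlap chart lie in `Ft A N`. -/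
theorem isChartInt_mem_Adm_of_red (hA : A.LiesOverPrime ℓ)
    (hred : ∀ x : chartAlgMid N ℓ, ThetaK hA _ (hS_mid ℓ N) x ∈ Ft A N)
    {S : Set ↥(modularFunctionFieldFull N)} (hS : S ⊆ {jFull N, (jFull N)⁻¹})
    {y : LaurentSeries A} (hy : IsChartInt ℓ A N S y) : y ∈ Adm A (Fb N) (Ft A N) := by
  have hy' : IsChartInt ℓ A N {jFull N, (jFull N)⁻¹} y := chartSpan_mono hS hy
  refine ⟨chartSpan_le_Fb _ hy', ?_⟩
  have hmem := coeffMap_residue_mem_span (rho0 ℓ) A (phiA ℓ A hA) (psiA ℓ A hA)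
    (residue_comp_phiA ℓ A hA) (qM ℓ N _ (hS_mid ℓ N)) y
    ((isChartInt_iff_mem_spanA hA _ (hS_mid ℓ N) _).mp hy')
  have key : ∀ w ∈ Submodule.span kA ((fun x => coeffMap (psiA ℓ A hA) (coeffMap (rho0 ℓ) x)) ''
      (qM ℓ N _ (hS_mid ℓ N) : Set (LaurentSeries Rl))), w ∈ Ft A N := by
    intro w hw
    induction hw using Submodule.span_induction with
    | mem w hw =>
      obtain ⟨_, ⟨x, rfl⟩, rfl⟩ := hw
      exact hred x
    | zero => exact zero_mem _
    | add u v _ _ hu hv => exact add_mem hu hv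
    | smul a u _ hu =>
      have h2 : a • u = algebraMap kA (LaurentSeries kA) a * u := by
        rw [algebraMap_laurentSeries_eq_single]
        ext n
        rw [HahnSeries.coeff_single_zero_mul]
        rfl
      rw [h2]
      exact mul_mem ((Ft A N).algebraMap_mem a) hu
  exact key _ hmem

/-- Same, with the hypothesis over the prime field: the coefficientwise reductions mod `ℓ` of the
`q`-expansions of the overlap chart lie in `𝔽_ℓ(j̄(q^d) : d ∣ N)`. -/
theorem isChartInt_mem_Adm_of_red_zmod (hA : A.LiesOverPrime ℓ)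
    (hred : ∀ x : chartAlgMid N ℓ,
      red ℓ (qExpMid ℓ N x) ∈ modularFunctionFieldFullC (ZMod ℓ) N)
    {S : Set ↥(modularFunctionFieldFull N)} (hS : S ⊆ {jFull N, (jFull N)⁻¹})
    {y : LaurentSeries A} (hy : IsChartInt ℓ A N S y) : y ∈ Adm A (Fb N) (Ft A N) :=
  isChartInt_mem_Adm_of_red hA (fun x => coeffMap_mem_fullC (psiA ℓ A hA) N (hred x)) hS hy

end Fermat.Agent.S18.RED3889
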