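import Fermat.Agent.S18.RED3889.Normalize

/-!
# S18, package RED, R4 (helper3889): `Fb` is the field of fractions of the chart `j ≠ ∞`

`exists_isIntFin_frac_R4` is the frozen statement `Fermat.Agent.S18.exists_isIntFin_frac` of
`Fermat/Agent/S18/Red.lean`: for `ℓ ∤ N` and `A` over `ℓ`, every `f ∈ Fb N = ℚ̄(X₀(N))` is a quotient
`y₁ / y₂` of two `IsIntFin` series over `A`, `y₂ ≠ 0`.

Ingredients: `exists_mul_mem_chartAlgFin` (every function of `ℚ(X₀(N))` is a quotient of two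
elements of the chart algebra; from the interface of the landed S28 tree), and the description
`IsChartInt ↔ ∈ spanA` of `Normalize.lean`.
-/

set_option autoImplicit false

noncomputable section

namespace Fermat.Agent.S18.RED3889

open ModularCurve ModularCurve.IgusaScheme Fermat.Agent.S28 Fermat.Agent.S28.QRed
  Fermat.Agent.S18.RED1249 Polynomial

section Chart

variable (N : ℕ) [NeZero N] (ℓ : ℕ) [Fact ℓ.Prime]

set_option quotPrecheck false in
local notation "Rl" => ↥(GaloisRep.ratLocalizedAt ℓ)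

set_option quotPrecheck false in
local notation "FF" => ↥(modularFunctionFieldFull N)

/-- Every element of `ℚ(X₀(N))` is a quotient of two elements of the chart algebra `A_fin`. -/
theorem exists_mul_mem_chartAlgFin {n : ℕ} {β : Fin n → LaurentSeries Rl}
    (H : Interface N ℓ n β) (x : FF) :
    ∃ d : FF, d ∈ chartAlgFin N ℓ ∧ d ≠ 0 ∧ d * x ∈ chartAlgFin N ℓ := by
  obtain ⟨b, a, hb, hrel⟩ := H.span (valF N x) x.2
  obtain ⟨m, b', a', hm, hb', ha'⟩ := exists_common_int_mul ℓ b a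
  have hmQ : (m : ℚ) ≠ 0 := fun h => hm (Subtype.ext h)
  have hb'0 : b' ≠ 0 := by
    intro h
    rw [h, Polynomial.map_zero] at hb'
    exact (mul_ne_zero (C_ne_zero.mpr hmQ) hb) hb'.symm
  have hrel' : valF N x * iota ℓ (aeval (jqModC Rl) b') =
      iota ℓ (∑ i, aeval (jqModC Rl) (a' i) * β i) := by
    rw [iota_aeval, hb', map_sum]
    simp only [map_mul, iota_aeval, ha', aeval_C]
    rw [mul_left_comm, hrel, Finset.mul_sum]
    exact Finset.sum_congr rfl fun i _ => by ring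
  refine ⟨evF N ℓ (jFull N) b', ?_, ?_, ?_⟩
  · refine adjoin_le_chartAlg N ℓ _ ?_
    rw [Algebra.adjoin_singleton_eq_range_aeval]
    exact ⟨b', rfl⟩
  · intro h
    exact hb'0 (evF_jFull_injective N ℓ (by rw [h, map_zero]))
  · apply (mem_chartAlg_iff N ℓ).mpr
    apply (isIntegral_adjoin_singleton_iff (jFull N) _).mpr
    apply isIntegralElem_of_valF
    rw [map_mul, valF_evF_jFull, mul_comm, hrel', map_sum]
    refine Finset.sum_induction _ _ (fun _ _ => RingHom.IsIntegralElem.add _)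
      (RingHom.isIntegralElem_zero _) ?_
    intro i _
    rw [map_mul, ← valF_evF_jFull N]
    exact RingHom.IsIntegralElem.mul _ (RingHom.isIntegralElem_map _) (H.integral i)

end Chart

section Frac

variable {ℓ : ℕ} [Fact ℓ.Prime] {A : ValuationSubring (AlgebraicClosure ℚ)} {N : ℕ} [NeZero N]

set_option quotPrecheck false in
local notation "Rl" => ↥(GaloisRep.ratLocalizedAt ℓ)

set_option quotPrecheck false in
local notation "FF" => ↥(modularFunctionFieldFull N)

theorem qM_mul_mem (S : Set FF) (hS : ∀ s ∈ S, ∃ a : LaurentSeries Rl, iota ℓ a = valF N s) :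
    ∀ x ∈ qM ℓ N S hS, ∀ y ∈ qM ℓ N S hS, x * y ∈ qM ℓ N S hS := by
  rintro _ ⟨x, rfl⟩ _ ⟨y, rfl⟩
  exact ⟨x * y, map_mul _ _ _⟩

theorem one_mem_spanA_qM (hA : A.LiesOverPrime ℓ) (S : Set FF)
    (hS : ∀ s ∈ S, ∃ a : LaurentSeries Rl, iota ℓ a = valF N s) :
    (1 : LaurentSeries A) ∈ spanA A (phiA ℓ A hA) (qM ℓ N S hS) := by
  have h : (1 : LaurentSeries A) = coeffMap (phiA ℓ A hA) (qExpChart ℓ N S hS 1) := by
    rw [map_one, map_one]
  rw [h]
  exact coeffMap_mem_spanA ⟨1, rfl⟩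

theorem C_mem_spanA_qM (hA : A.LiesOverPrime ℓ) (S : Set FF)
    (hS : ∀ s ∈ S, ∃ a : LaurentSeries Rl, iota ℓ a = valF N s) (a : A) :
    (HahnSeries.C a : LaurentSeries A) ∈ spanA A (phiA ℓ A hA) (qM ℓ N S hS) := by
  have h : (HahnSeries.C a : LaurentSeries A) = a • (1 : LaurentSeries A) := by
    rw [← HahnSeries.C_mul_eq_smul, mul_one]
  rw [h]
  exact Submodule.smul_mem _ _ (one_mem_spanA_qM hA S hS)

theorem coeffMap_subtype_C (a : A) :
    coeffMap A.subtype (HahnSeries.C a : LaurentSeries A) =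
      algebraMap (AlgebraicClosure ℚ) (LaurentSeries (AlgebraicClosure ℚ)) (a : AlgebraicClosure ℚ) := by
  rw [algebraMap_laurentSeries_eq_single, HahnSeries.C_apply, coeffMap_single]
  rfl

/-- **R4** (`Fermat.Agent.S18.exists_isIntFin_frac` of the frozen `Red.lean`). -/
theorem exists_isIntFin_frac_R4 (hℓN : ¬ ℓ ∣ N) (hA : A.LiesOverPrime ℓ) (f : Fb N) :
    ∃ y₁ y₂ : LaurentSeries A, IsIntFin ℓ A N y₁ ∧ IsIntFin ℓ A N y₂ ∧ y₂ ≠ 0 ∧
      (f : LaurentSeries (AlgebraicClosure ℚ)) * coeffMap A.subtype y₂ = coeffMap A.subtype y₁ := by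
  obtain ⟨n, β, H⟩ := exists_interface ℓ N hℓN
  set 𝒜 := spanA A (phiA ℓ A hA) (qM ℓ N {jFull N} (hS_fin ℓ N)) with h𝒜
  have hmul : ∀ {z w : LaurentSeries A}, z ∈ 𝒜 → w ∈ 𝒜 → z * w ∈ 𝒜 := fun hz hw =>
    mul_mem_spanA A (phiA ℓ A hA) _ (qM_mul_mem _ (hS_fin ℓ N)) hz hw
  have hone : (1 : LaurentSeries A) ∈ 𝒜 := one_mem_spanA_qM hA _ (hS_fin ℓ N)
  have hinj : Function.Injective (coeffMap A.subtype) :=
    coeffMap_injective_of_injective _ Subtype.val_injective
  have key : ∀ g : LaurentSeries (AlgebraicClosure ℚ), g ∈ Fb N →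
      ∃ y₁ y₂ : LaurentSeries A, y₁ ∈ 𝒜 ∧ y₂ ∈ 𝒜 ∧ y₂ ≠ 0 ∧
        g * coeffMap A.subtype y₂ = coeffMap A.subtype y₁ := by
    intro g hg
    rw [mem_laurentBaseChange_iff] at hg
    induction hg using Subfield.closure_induction with
    | mem g hg =>
      rcases hg with ⟨c, rfl⟩ | ⟨x, hx, rfl⟩
      · by_cases hcA : c ∈ A
        · refine ⟨HahnSeries.C ⟨c, hcA⟩, 1, C_mem_spanA_qM hA _ (hS_fin ℓ N) _, hone,
            one_ne_zero, ?_⟩
          rw [map_one, mul_one, coeffMap_subtype_C]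
        · have hc0 : c ≠ 0 := fun h => hcA (h ▸ A.zero_mem)
          have hcinv : c⁻¹ ∈ A := (A.mem_or_inv_mem c).resolve_left hcA
          refine ⟨1, HahnSeries.C ⟨c⁻¹, hcinv⟩, hone, C_mem_spanA_qM hA _ (hS_fin ℓ N) _, ?_, ?_⟩
          · intro h
            have h1 := congrArg (fun z : LaurentSeries A => z.coeff 0) h
            simp only [HahnSeries.C_apply, HahnSeries.coeff_single_same,
              HahnSeries.coeff_zero] at h1
            exact inv_ne_zero hc0 (congrArg Subtype.val h1)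
          · rw [map_one, coeffMap_subtype_C, ← map_mul]
            show algebraMap _ _ (c * c⁻¹) = 1
            rw [mul_inv_cancel₀ hc0, map_one]
      · obtain ⟨d, hd, hd0, hdx⟩ := exists_mul_mem_chartAlgFin N ℓ H ⟨x, hx⟩
        refine ⟨coeffMap (phiA ℓ A hA) (qExpChart ℓ N _ (hS_fin ℓ N) ⟨_, hdx⟩),
          coeffMap (phiA ℓ A hA) (qExpChart ℓ N _ (hS_fin ℓ N) ⟨d, hd⟩),
          coeffMap_mem_spanA ⟨_, rfl⟩, coeffMap_mem_spanA ⟨_, rfl⟩, ?_, ?_⟩
        · intro h
          have h1 := congrArg (coeffMap A.subtype) h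
          rw [coeffMap_subtype_phiA_qExpChart, map_zero] at h1
          have h2 : ((d : FF) : LaurentSeries ℚ) = 0 :=
            (coeffEmb (AlgebraicClosure ℚ)).injective (by rw [h1, map_zero])
          exact hd0 (Subtype.ext h2)
        · rw [coeffMap_subtype_phiA_qExpChart, coeffMap_subtype_phiA_qExpChart, ← map_mul]
          congr 1
          show x * (d : LaurentSeries ℚ) = ((d * ⟨x, hx⟩ : FF) : LaurentSeries ℚ)
          rw [mul_comm]
          rfl
    | one => exact ⟨1, 1, hone, hone, one_ne_zero, by rw [map_one, mul_one]⟩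
    | add g g' _ _ hg hg' =>
      obtain ⟨y₁, y₂, h₁, h₂, h0, he⟩ := hg
      obtain ⟨y₁', y₂', h₁', h₂', h0', he'⟩ := hg'
      refine ⟨y₁ * y₂' + y₁' * y₂, y₂ * y₂', Submodule.add_mem _ (hmul h₁ h₂') (hmul h₁' h₂),
        hmul h₂ h₂', mul_ne_zero h0 h0', ?_⟩
      rw [map_add, map_mul, map_mul, map_mul, ← he, ← he']
      ring
    | neg g _ hg =>
      obtain ⟨y₁, y₂, h₁, h₂, h0, he⟩ := hg
      exact ⟨-y₁, y₂, Submodule.neg_mem _ h₁, h₂, h0, by rw [map_neg, ← he]; ring⟩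
    | inv g _ hg =>
      obtain ⟨y₁, y₂, h₁, h₂, h0, he⟩ := hg
      by_cases hy₁ : y₁ = 0
      · have hg0 : g = 0 := by
          rw [hy₁, map_zero] at he
          rcases mul_eq_zero.mp he with h | h
          · exact h
          · exact absurd (hinj (by rw [h, map_zero])) h0
        exact ⟨0, 1, Submodule.zero_mem _, hone, one_ne_zero, by rw [hg0, inv_zero, zero_mul,
          map_zero]⟩
      · have hgen₂ : coeffMap A.subtype y₂ ≠ 0 := fun h => h0 (hinj (by rw [h, map_zero]))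
        have hgen₁ : coeffMap A.subtype y₁ ≠ 0 := fun h => hy₁ (hinj (by rw [h, map_zero]))
        have hg0 : g ≠ 0 := by
          rintro rfl
          rw [zero_mul] at he
          exact hgen₁ he.symm
        refine ⟨y₂, y₁, h₂, h₁, hy₁, ?_⟩
        rw [← he]
        field_simp
    | mul g g' _ _ hg hg' =>
      obtain ⟨y₁, y₂, h₁, h₂, h0, he⟩ := hg
      obtain ⟨y₁', y₂', h₁', h₂', h0', he'⟩ := hg'
      refine ⟨y₁ * y₁', y₂ * y₂', hmul h₁ h₁', hmul h₂ h₂', mul_ne_zero h0 h0', ?_⟩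
      rw [map_mul, map_mul, ← he, ← he']
      ring
  obtain ⟨y₁, y₂, h₁, h₂, h0, he⟩ := key f f.2
  exact ⟨y₁, y₂, (isChartInt_iff_mem_spanA hA _ (hS_fin ℓ N) y₁).mpr h₁,
    (isChartInt_iff_mem_spanA hA _ (hS_fin ℓ N) y₂).mpr h₂, h0, he⟩

end Frac

end Fermat.Agent.S18.RED3889
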