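import Mathlib
import Fermat.Prelude.Def_ModularCurve_LaurentCoeff

/-!
# S18, package RED (helper3889): linear independence of Laurent series under extension of the
coefficient field

`linearIndependent_coeffMap`: a family of Laurent series over a field `k₀` that is linearly
independent over `k₀` stays linearly independent over any extension field `k` after coefficientwise
extension of scalars.  (Equivalently `k ⊗ k₀((q)) → k((q))` is injective.)  This is the
"flatness" input for the base change of the `q`-expansion principle from `ℤ_(ℓ)` to the valuation
ring `A`.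
-/

set_option autoImplicit false

noncomputable section

namespace Fermat.Agent.S18.RED3889

open ModularCurve

/-- Coefficientwise form: a `k`-linear relation between functions with values in `k₀`. -/
theorem eq_zero_of_sum_mul_algebraMap_eq_zero {k₀ k : Type*} [Field k₀] [Field k] [Algebra k₀ k]
    {ι X : Type*} (f : ι → X → k₀)
    (hf : ∀ (s : Finset ι) (c : ι → k₀), (∀ x, ∑ i ∈ s, c i * f i x = 0) → ∀ i ∈ s, c i = 0)
    (s : Finset ι) (g : ι → k) (h : ∀ x, ∑ i ∈ s, g i * algebraMap k₀ k (f i x) = 0) :
    ∀ i ∈ s, g i = 0 := by
  classical
  set B := Module.Basis.ofVectorSpace k₀ k with hB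
  have key : ∀ b, ∀ i ∈ s, B.repr (g i) b = 0 := by
    intro b
    apply hf s (fun i => B.repr (g i) b)
    intro x
    have h1 := congrArg (fun v => B.repr v b) (h x)
    simp only [map_sum, map_zero, Finsupp.coe_finsetSum, Finset.sum_apply,
      Finsupp.coe_zero, Pi.zero_apply] at h1
    rw [← h1]
    refine Finset.sum_congr rfl fun i _ => ?_
    have h2 : g i * algebraMap k₀ k (f i x) = f i x • g i := by
      rw [Algebra.smul_def, mul_comm]
    rw [h2, map_smul, Finsupp.smul_apply, smul_eq_mul, mul_comm]
  intro i hi
  have : B.repr (g i) = 0 := by
    ext b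
    exact key b i hi
  simpa using this

/-- Linear independence of Laurent series is preserved under extension of the coefficient
field. -/
theorem linearIndependent_coeffMap {k₀ k : Type*} [Field k₀] [Field k] [Algebra k₀ k]
    {ι : Type*} (f : ι → LaurentSeries k₀) (hf : LinearIndependent k₀ f) :
    LinearIndependent k (fun i => coeffMap (algebraMap k₀ k) (f i)) := by
  rw [linearIndependent_iff'] at hf ⊢
  intro s g hg
  apply eq_zero_of_sum_mul_algebraMap_eq_zero (fun i (n : ℤ) => (f i).coeff n) ?_ s g ?_
  · intro t c hc i hi
    apply hf t c ?_ i hi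
    ext n
    simp only [HahnSeries.coeff_sum, HahnSeries.coeff_smul, smul_eq_mul, HahnSeries.coeff_zero]
    exact hc n
  · intro n
    have := congrArg (fun x => x.coeff n) hg
    simp only [HahnSeries.coeff_sum, HahnSeries.coeff_smul, smul_eq_mul, HahnSeries.coeff_zero,
      coeffMap_coeff] at this
    exact this

/-- Ring-hom version (no `Algebra` instance needed). -/
theorem linearIndependent_coeffMap' {k₀ k : Type*} [Field k₀] [Field k] (φ : k₀ →+* k)
    {ι : Type*} (f : ι → LaurentSeries k₀) (hf : LinearIndependent k₀ f) :
    LinearIndependent k (fun i => coeffMap φ (f i)) := by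
  let _ : Algebra k₀ k := φ.toAlgebra
  exact linearIndependent_coeffMap f hf

end Fermat.Agent.S18.RED3889
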