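import Mathlib
import Fermat.Prelude.Def_ModularCurve_LaurentCoeff
import Fermat.Agent.S18.RED3889.LinIndep

/-!
# S18, package RED (helper3889): base change of the `q`-expansion principle to a valuation ring,
and the Gauss normal form  (abstract core, Mathlib + `coeffMap` only)

Setting: `R` a principal ideal domain (in the application `ℤ_(ℓ)`), `ρ : R → k₀` a surjection onto
a field killing `ℓ ≠ 0`, and `M ⊆ R((q))` an `R`-submodule which is **saturated**:
`x ∈ M`, `x ≡ 0 mod ℓ` (coefficientwise) implies `x ∈ ℓ M`   (this is `(*)` of the S28 tree).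
Let `A` be a valuation subring of a field `L` with a ring hom `φ : R → A` and a field hom
`ψ : k₀ → A/𝔪` compatible with `ρ`, and let `𝒜 := A`-span of `M` inside `A((q))`.

* `exists_adapted_family`  : finitely many elements of `M` lie in the `R`-span of finitely many
  `y_j ∈ M` whose reductions are linearly independent over `k₀`;
* `exists_adapted_repr`    : every `z ∈ 𝒜` is `∑ b_j • y_j` with `b_j ∈ A` and such `y_j`;
* `exists_gauss_form`      : **Gauss normal form**: `0 ≠ z ∈ 𝒜` is `c • z₁` with `0 ≠ c ∈ A`, `z₁ ∈ 𝒜`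
  and `z₁ mod 𝔪 ≠ 0`;
* `saturated_span`         : **saturation over `A`**: `z ∈ 𝒜` with all coefficients divisible by
  `c ∈ A` lies in `c 𝒜`;
* `exists_nonunit_smul_of_residue_eq_zero` : `z ∈ 𝒜`, `z ≡ 0 mod 𝔪` implies `z ∈ c 𝒜` for some
  `c ∈ 𝔪`.
-/

set_option autoImplicit false

noncomputable section

namespace Fermat.Agent.S18.RED3889

open ModularCurve

/-- A finite-dimensional space of "functions" is separated by finitely many coordinates. -/
theorem exists_finset_separating {K E X : Type*} [Field K] [AddCommGroup E] [Module K E]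
    (c : X → E →ₗ[K] K) (hc : ∀ w : E, (∀ n, c n w = 0) → w = 0)
    (V : Submodule K E) [FiniteDimensional K V] :
    ∃ T : Finset X, ∀ w ∈ V, (∀ n ∈ T, c n w = 0) → w = 0 := by
  classical
  have key : ∀ d : ℕ, ∀ T : Finset X,
      Module.finrank K ↥(V ⊓ ⨅ n ∈ T, LinearMap.ker (c n)) ≤ d →
      ∃ T' : Finset X, V ⊓ ⨅ n ∈ T', LinearMap.ker (c n) = ⊥ := by
    intro d
    induction d with
    | zero =>
      intro T hT
      refine ⟨T, ?_⟩
      have : FiniteDimensional K ↥(V ⊓ ⨅ n ∈ T, LinearMap.ker (c n)) :=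
        Submodule.finiteDimensional_of_le inf_le_left
      exact Submodule.finrank_eq_zero.mp (Nat.le_zero.mp hT)
    | succ d ih =>
      intro T hT
      by_cases hbot : V ⊓ ⨅ n ∈ T, LinearMap.ker (c n) = ⊥
      · exact ⟨T, hbot⟩
      · obtain ⟨w, hw, hw0⟩ := Submodule.exists_mem_ne_zero_of_ne_bot hbot
        obtain ⟨n, hn⟩ : ∃ n, c n w ≠ 0 := by
          by_contra hcon
          push Not at hcon
          exact hw0 (hc w hcon)
        apply ih (insert n T)
        have hle : V ⊓ ⨅ m ∈ insert n T, LinearMap.ker (c m) ≤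
            V ⊓ ⨅ m ∈ T, LinearMap.ker (c m) := by
          refine inf_le_inf_left _ ?_
          intro u hu
          simp only [Submodule.mem_iInf, Finset.mem_insert] at hu ⊢
          exact fun m hm => hu m (Or.inr hm)
        have hlt : V ⊓ ⨅ m ∈ insert n T, LinearMap.ker (c m) <
            V ⊓ ⨅ m ∈ T, LinearMap.ker (c m) := by
          refine lt_of_le_of_ne hle fun heq => ?_
          rw [← heq] at hw
          have hw2 : w ∈ ⨅ m ∈ insert n T, LinearMap.ker (c m) := (Submodule.mem_inf.mp hw).2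
          simp only [Submodule.mem_iInf, Finset.mem_insert] at hw2
          exact hn (hw2 n (Or.inl rfl))
        have : FiniteDimensional K ↥(V ⊓ ⨅ n ∈ T, LinearMap.ker (c n)) :=
          Submodule.finiteDimensional_of_le inf_le_left
        have := Submodule.finrank_lt_finrank_of_lt hlt
        omega
  obtain ⟨T', hT'⟩ := key _ ∅ le_rfl
  refine ⟨T', fun w hw h => ?_⟩
  have hmem : w ∈ V ⊓ ⨅ n ∈ T', LinearMap.ker (c n) := by
    refine Submodule.mem_inf.mpr ⟨hw, ?_⟩
    simp only [Submodule.mem_iInf]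
    exact fun n hn => h n hn
  rw [hT'] at hmem
  simpa using hmem

theorem coeffMap_smul_eq {R S : Type*} [CommRing R] [CommRing S] (f : R →+* S) (r : R)
    (x : LaurentSeries R) : coeffMap f (r • x) = f r • coeffMap f x := by
  ext n
  simp

theorem coeffMap_injective_of_injective {R S : Type*} [CommRing R] [CommRing S] (f : R →+* S)
    (hf : Function.Injective f) : Function.Injective (coeffMap f) := by
  intro x y h
  ext n
  have := congrArg (fun z => z.coeff n) h
  simp only [coeffMap_coeff] at this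
  exact hf this

section Adapted

variable {R : Type*} [CommRing R] [IsDomain R] [IsPrincipalIdealRing R]
variable {k₀ : Type*} [Field k₀] (ρ : R →+* k₀)

/-- **Adapted families.**  Finitely many elements of a saturated module `M ⊆ R((q))` lie in the
span of finitely many elements of `M` whose reductions are linearly independent. -/
theorem exists_adapted_family (hρ : Function.Surjective ρ) (ℓ : R) (hℓ : ℓ ≠ 0) (hρℓ : ρ ℓ = 0)
    (M : Submodule R (LaurentSeries R))
    (hsat : ∀ x ∈ M, coeffMap ρ x = 0 → ∃ y ∈ M, x = ℓ • y)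
    {r : ℕ} (x : Fin r → LaurentSeries R) (hx : ∀ i, x i ∈ M) :
    ∃ (s : ℕ) (y : Fin s → LaurentSeries R), (∀ j, y j ∈ M) ∧
      LinearIndependent k₀ (fun j => coeffMap ρ (y j)) ∧
      ∀ i, x i ∈ Submodule.span R (Set.range y) := by
  classical
  let K := FractionRing R
  let ι : LaurentSeries R →+* LaurentSeries K := coeffMap (algebraMap R K)
  have hι : Function.Injective ι :=
    coeffMap_injective_of_injective _ (IsFractionRing.injective R K)
  let V : Submodule K (LaurentSeries K) := Submodule.span K (Set.range fun i => ι (x i))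
  have : FiniteDimensional K V := FiniteDimensional.span_of_finite K (Set.finite_range _)
  let c : ℤ → LaurentSeries K →ₗ[K] K := fun n =>
    { toFun := fun w => w.coeff n
      map_add' := fun _ _ => rfl
      map_smul' := fun _ _ => rfl }
  obtain ⟨T, hT⟩ := exists_finset_separating c (fun w hw => by ext n; exact hw n) V
  let N' : Submodule R (LaurentSeries R) :=
    { carrier := {u | u ∈ M ∧ ι u ∈ V}
      add_mem' := fun {u v} hu hv => ⟨M.add_mem hu.1 hv.1, by
        show ι (u + v) ∈ V
        rw [map_add]; exact V.add_mem hu.2 hv.2⟩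
      zero_mem' := ⟨M.zero_mem, by show ι 0 ∈ V; rw [map_zero]; exact V.zero_mem⟩
      smul_mem' := fun a {u} hu => ⟨M.smul_mem a hu.1, by
        show ι (a • u) ∈ V
        rw [coeffMap_smul_eq]; exact V.smul_mem _ hu.2⟩ }
  have hN'M : ∀ u : N', (u : LaurentSeries R) ∈ M := fun u => u.2.1
  have hN'V : ∀ u : N', ι (u : LaurentSeries R) ∈ V := fun u => u.2.2
  let e : N' →ₗ[R] (T → R) :=
    { toFun := fun u n => (u : LaurentSeries R).coeff n
      map_add' := fun _ _ => rfl
      map_smul' := fun _ _ => rfl }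
  have he : Function.Injective e := by
    rw [← LinearMap.ker_eq_bot, LinearMap.ker_eq_bot']
    intro u hu
    apply Subtype.ext
    apply hι
    rw [Submodule.coe_zero, map_zero]
    apply hT _ (hN'V u)
    intro n hn
    have h1 : (u : LaurentSeries R).coeff n = 0 := congrFun hu ⟨n, hn⟩
    show (ι (u : LaurentSeries R)).coeff n = 0
    rw [coeffMap_coeff, h1, map_zero]
  have : Module.Finite R N' := Module.Finite.of_injective e he
  have : Module.IsTorsionFree R N' := by
    apply Module.IsTorsionFree.of_smul_eq_zero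
    intro a u hau
    by_cases ha : a = 0
    · exact Or.inl ha
    · right
      apply Subtype.ext
      ext n
      have h1 := congrArg (fun v : N' => (v : LaurentSeries R).coeff n) hau
      simp only [Submodule.coe_smul, HahnSeries.coeff_smul, smul_eq_mul, Submodule.coe_zero,
        HahnSeries.coeff_zero] at h1
      rcases mul_eq_zero.mp h1 with h | h
      · exact absurd h ha
      · simpa using h
  have : Module.Free R N' := Module.free_of_finite_type_torsion_free'
  let b := Module.finBasis R N'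
  refine ⟨Module.finrank R N', fun j => (b j : LaurentSeries R), fun j => hN'M (b j), ?_, ?_⟩
  · rw [Fintype.linearIndependent_iff]
    intro g hg j
    choose cc hcc using fun j => hρ (g j)
    -- the lift of the relation
    set u : N' := ∑ j, cc j • b j with hu
    have hred : coeffMap ρ (u : LaurentSeries R) = 0 := by
      rw [hu, Submodule.coe_sum, map_sum, ← hg]
      refine Finset.sum_congr rfl fun j _ => ?_
      rw [Submodule.coe_smul, coeffMap_smul_eq, hcc]
    obtain ⟨w, hwM, hw⟩ := hsat _ (hN'M u) hred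
    have hwV : ι w ∈ V := by
      have h1 : ι (u : LaurentSeries R) = algebraMap R K ℓ • ι w := by
        rw [hw, coeffMap_smul_eq]
      have h2 : ι w = (algebraMap R K ℓ)⁻¹ • ι (u : LaurentSeries R) := by
        rw [h1, smul_smul, inv_mul_cancel₀, one_smul]
        rwa [Ne, map_eq_zero_iff _ (IsFractionRing.injective R K)]
      rw [h2]
      exact V.smul_mem _ (hN'V u)
    let w' : N' := ⟨w, hwM, hwV⟩
    have huw : u = ℓ • w' := Subtype.ext hw
    have h3 : b.repr u j = ℓ * b.repr w' j := by
      rw [huw, map_smul, Finsupp.smul_apply, smul_eq_mul]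
    have h4 : b.repr u j = cc j := by
      rw [hu, map_sum]
      simp [Finsupp.single_apply]
    rw [← hcc j, ← h4, h3, map_mul, hρℓ, zero_mul]
  · intro i
    have hxi : ι (x i) ∈ V := Submodule.subset_span ⟨i, rfl⟩
    let xi : N' := ⟨x i, hx i, hxi⟩
    have h5 : xi = ∑ j, b.repr xi j • b j := (b.sum_repr xi).symm
    have h6 : x i = ∑ j, b.repr xi j • (b j : LaurentSeries R) := by
      have h7 : (xi : LaurentSeries R) = ((∑ j, b.repr xi j • b j : N') : LaurentSeries R) :=
        congrArg Subtype.val h5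
      rw [Submodule.coe_sum] at h7
      exact h7
    rw [h6]
    exact Submodule.sum_mem _ fun j _ =>
      Submodule.smul_mem _ _ (Submodule.subset_span ⟨j, rfl⟩)

end Adapted

section Gauss

variable {R : Type*} [CommRing R] [IsDomain R] [IsPrincipalIdealRing R]
variable {k₀ : Type*} [Field k₀] (ρ : R →+* k₀)
variable {L : Type*} [Field L] (A : ValuationSubring L) (φ : R →+* A)
variable (ψ : k₀ →+* IsLocalRing.ResidueField A)

/-- The `A`-span of (the image of) `M ⊆ R((q))` inside `A((q))`. -/
def spanA (M : Submodule R (LaurentSeries R)) : Submodule A (LaurentSeries A) :=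
  Submodule.span A (coeffMap φ '' (M : Set (LaurentSeries R)))

omit [IsDomain R] [IsPrincipalIdealRing R] in
variable {A φ} in
theorem coeffMap_mem_spanA {M : Submodule R (LaurentSeries R)} {x : LaurentSeries R}
    (hx : x ∈ M) : coeffMap φ x ∈ spanA A φ M :=
  Submodule.subset_span ⟨x, hx, rfl⟩

omit [IsDomain R] [IsPrincipalIdealRing R] in
/-- `𝒜` is closed under multiplication when `M` is. -/
theorem mul_mem_spanA (M : Submodule R (LaurentSeries R))
    (hmul : ∀ x ∈ M, ∀ y ∈ M, x * y ∈ M) {z w : LaurentSeries A}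
    (hz : z ∈ spanA A φ M) (hw : w ∈ spanA A φ M) : z * w ∈ spanA A φ M := by
  induction hz using Submodule.span_induction with
  | mem z hz =>
    obtain ⟨x, hx, rfl⟩ := hz
    induction hw using Submodule.span_induction with
    | mem w hw =>
      obtain ⟨y, hy, rfl⟩ := hw
      rw [← map_mul]
      exact coeffMap_mem_spanA (hmul x hx y hy)
    | zero => rw [mul_zero]; exact Submodule.zero_mem _
    | add u v _ _ hu hv => rw [mul_add]; exact Submodule.add_mem _ hu hv
    | smul a u _ hu =>
      have h : coeffMap φ x * (a • u) = a • (coeffMap φ x * u) := by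
        rw [← HahnSeries.C_mul_eq_smul, ← HahnSeries.C_mul_eq_smul]; ring
      rw [h]; exact Submodule.smul_mem _ _ hu
  | zero => rw [zero_mul]; exact Submodule.zero_mem _
  | add u v _ _ hu hv => rw [add_mul]; exact Submodule.add_mem _ hu hv
  | smul a u _ hu =>
    have h : a • u * w = a • (u * w) := by
      rw [← HahnSeries.C_mul_eq_smul, ← HahnSeries.C_mul_eq_smul]; ring
    rw [h]; exact Submodule.smul_mem _ _ hu

/-- **Adapted representation.**  Every element of `𝒜` is an `A`-combination of finitely many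
elements of `M` whose reductions are linearly independent over `k₀`. -/
theorem exists_adapted_repr (hρ : Function.Surjective ρ) (ℓ : R) (hℓ : ℓ ≠ 0) (hρℓ : ρ ℓ = 0)
    (M : Submodule R (LaurentSeries R))
    (hsat : ∀ x ∈ M, coeffMap ρ x = 0 → ∃ y ∈ M, x = ℓ • y)
    (z : LaurentSeries A) (hz : z ∈ spanA A φ M) :
    ∃ (s : ℕ) (y : Fin s → LaurentSeries R) (b : Fin s → A), (∀ j, y j ∈ M) ∧
      LinearIndependent k₀ (fun j => coeffMap ρ (y j)) ∧ z = ∑ j, b j • coeffMap φ (y j) := by
  rw [spanA, Submodule.mem_span_set'] at hz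
  obtain ⟨r, a, g, rfl⟩ := hz
  choose x hxM hx using fun i => (g i).2
  obtain ⟨s, y, hyM, hli, hspan⟩ := exists_adapted_family ρ hρ ℓ hℓ hρℓ M hsat x hxM
  have hc : ∀ i, ∃ c : Fin s → R, ∑ j, c j • y j = x i := fun i =>
    (Submodule.mem_span_range_iff_exists_fun R).mp (hspan i)
  choose c hc using hc
  refine ⟨s, y, fun j => ∑ i, a i * φ (c i j), hyM, hli, ?_⟩
  have h1 : ∀ i, (g i : LaurentSeries A) = ∑ j, φ (c i j) • coeffMap φ (y j) := by
    intro i
    rw [← hx i, ← hc i, map_sum]
    exact Finset.sum_congr rfl fun j _ => coeffMap_smul_eq _ _ _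
  simp_rw [h1, Finset.smul_sum, smul_smul, Finset.sum_smul]
  rw [Finset.sum_comm]

/-- **Gauss normal form.**  A nonzero element of `𝒜` is `c • z₁` with `c ≠ 0` in `A` and
`z₁ ∈ 𝒜` with nonzero coefficientwise reduction modulo the maximal ideal. -/
theorem exists_gauss_form (hρ : Function.Surjective ρ) (ℓ : R) (hℓ : ℓ ≠ 0) (hρℓ : ρ ℓ = 0)
    (hφψ : (IsLocalRing.residue A).comp φ = ψ.comp ρ)
    (M : Submodule R (LaurentSeries R))
    (hsat : ∀ x ∈ M, coeffMap ρ x = 0 → ∃ y ∈ M, x = ℓ • y)
    (z : LaurentSeries A) (hz : z ∈ spanA A φ M) (hz0 : z ≠ 0) :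
    ∃ (c : A) (z₁ : LaurentSeries A), c ≠ 0 ∧ z₁ ∈ spanA A φ M ∧ z = c • z₁ ∧
      coeffMap (IsLocalRing.residue A) z₁ ≠ 0 := by
  classical
  obtain ⟨s, y, b, hyM, hli, rfl⟩ := exists_adapted_repr ρ A φ hρ ℓ hℓ hρℓ M hsat z hz
  obtain ⟨j₁, hj₁⟩ : ∃ j, b j ≠ 0 := by
    by_contra h
    push Not at h
    exact hz0 (Finset.sum_eq_zero fun j _ => by rw [h j, zero_smul])
  obtain ⟨j₀, -, hmax⟩ := Finset.exists_max_image Finset.univ
    (fun j => A.valuation (b j : L)) ⟨j₁, Finset.mem_univ _⟩
  have hb0 : (b j₀ : L) ≠ 0 := by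
    intro h
    have h1 := hmax j₁ (Finset.mem_univ _)
    simp only [h, map_zero] at h1
    have h2 : A.valuation (b j₁ : L) = 0 := le_antisymm h1 zero_le
    rw [Valuation.zero_iff] at h2
    exact hj₁ (Subtype.ext h2)
  have hv0 : 0 < A.valuation (b j₀ : L) := by
    rw [zero_lt_iff, Ne, Valuation.zero_iff]
    exact hb0
  have hmem : ∀ j, (b j : L) / (b j₀ : L) ∈ A := by
    intro j
    rw [← A.valuation_le_one_iff, map_div₀]
    exact (div_le_one₀ hv0).mpr (hmax j (Finset.mem_univ _))
  let e : Fin s → A := fun j => ⟨_, hmem j⟩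
  have hbe : ∀ j, b j = b j₀ * e j := fun j => Subtype.ext (by
    show (b j : L) = (b j₀ : L) * ((b j : L) / (b j₀ : L))
    field_simp)
  have he0 : e j₀ = 1 := Subtype.ext (div_self hb0)
  refine ⟨b j₀, ∑ j, e j • coeffMap φ (y j), fun h => hb0 (by rw [h]; rfl), ?_, ?_, ?_⟩
  · exact Submodule.sum_mem _ fun j _ =>
      Submodule.smul_mem _ _ (coeffMap_mem_spanA (hyM j))
  · rw [Finset.smul_sum]
    exact Finset.sum_congr rfl fun j _ => by rw [smul_smul, ← hbe]
  · intro hred
    rw [map_sum] at hred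
    have hli' := linearIndependent_coeffMap' ψ _ hli
    rw [Fintype.linearIndependent_iff] at hli'
    have h3 := hli' (fun j => IsLocalRing.residue A (e j)) (by
      rw [← hred]
      refine Finset.sum_congr rfl fun j _ => ?_
      rw [coeffMap_smul_eq, coeffMap_coeffMap, coeffMap_coeffMap, hφψ]) j₀
    rw [he0, map_one] at h3
    exact one_ne_zero h3

/-- **Saturation over `A`.**  An element of `𝒜` all of whose coefficients are divisible by
`c ∈ A` lies in `c 𝒜`. -/
theorem saturated_span (hρ : Function.Surjective ρ) (ℓ : R) (hℓ : ℓ ≠ 0) (hρℓ : ρ ℓ = 0)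
    (hφψ : (IsLocalRing.residue A).comp φ = ψ.comp ρ)
    (M : Submodule R (LaurentSeries R))
    (hsat : ∀ x ∈ M, coeffMap ρ x = 0 → ∃ y ∈ M, x = ℓ • y)
    (z : LaurentSeries A) (hz : z ∈ spanA A φ M) (c : A) (hc : ∀ n, c ∣ z.coeff n) :
    ∃ z₁ ∈ spanA A φ M, z = c • z₁ := by
  by_cases hz0 : z = 0
  · exact ⟨0, Submodule.zero_mem _, by rw [hz0, smul_zero]⟩
  obtain ⟨d, z₁, -, hz₁, rfl, hred⟩ :=
    exists_gauss_form ρ A φ ψ hρ ℓ hℓ hρℓ hφψ M hsat z hz hz0
  obtain ⟨n, hn⟩ : ∃ n, IsLocalRing.residue A (z₁.coeff n) ≠ 0 := by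
    by_contra h
    push Not at h
    exact hred (by ext n; simpa using h n)
  have hu : IsUnit (z₁.coeff n) := by
    by_contra hnu
    exact hn ((IsLocalRing.residue_eq_zero_iff _).mpr ((IsLocalRing.mem_maximalIdeal _).mpr hnu))
  have hcd : c ∣ d := by
    have h1 := hc n
    rw [HahnSeries.coeff_smul, smul_eq_mul] at h1
    exact hu.dvd_mul_right.mp h1
  obtain ⟨e, rfl⟩ := hcd
  exact ⟨e • z₁, Submodule.smul_mem _ _ hz₁, by rw [smul_smul]⟩

/-- **Saturation over `A`, reduction form.**  A nonzero element of `𝒜` with zero reduction is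
`c • z₁` with `c` in the maximal ideal and `z₁ ∈ 𝒜` of nonzero reduction. -/
theorem exists_nonunit_smul_of_residue_eq_zero (hρ : Function.Surjective ρ) (ℓ : R) (hℓ : ℓ ≠ 0)
    (hρℓ : ρ ℓ = 0) (hφψ : (IsLocalRing.residue A).comp φ = ψ.comp ρ)
    (M : Submodule R (LaurentSeries R))
    (hsat : ∀ x ∈ M, coeffMap ρ x = 0 → ∃ y ∈ M, x = ℓ • y)
    (z : LaurentSeries A) (hz : z ∈ spanA A φ M) (hz0 : z ≠ 0)
    (hred : coeffMap (IsLocalRing.residue A) z = 0) :
    ∃ (c : A) (z₁ : LaurentSeries A), c ≠ 0 ∧ c ∈ IsLocalRing.maximalIdeal A ∧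
      z₁ ∈ spanA A φ M ∧ z = c • z₁ ∧ coeffMap (IsLocalRing.residue A) z₁ ≠ 0 := by
  obtain ⟨c, z₁, hc, hz₁, rfl, hred₁⟩ :=
    exists_gauss_form ρ A φ ψ hρ ℓ hℓ hρℓ hφψ M hsat z hz hz0
  refine ⟨c, z₁, hc, ?_, hz₁, rfl, hred₁⟩
  rw [coeffMap_smul_eq] at hred
  rw [← IsLocalRing.residue_eq_zero_iff]
  by_contra hc'
  exact hred₁ ((smul_eq_zero.mp hred).resolve_left hc')

omit [IsDomain R] [IsPrincipalIdealRing R] in
/-- The reduction of an element of `𝒜` lies in the `k`-span of the reductions of `M`. -/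
theorem coeffMap_residue_mem_span (hφψ : (IsLocalRing.residue A).comp φ = ψ.comp ρ)
    (M : Submodule R (LaurentSeries R)) (z : LaurentSeries A) (hz : z ∈ spanA A φ M) :
    coeffMap (IsLocalRing.residue A) z ∈ Submodule.span (IsLocalRing.ResidueField A)
      ((fun x => coeffMap ψ (coeffMap ρ x)) '' (M : Set (LaurentSeries R))) := by
  induction hz using Submodule.span_induction with
  | mem z hz =>
    obtain ⟨x, hx, rfl⟩ := hz
    refine Submodule.subset_span ⟨x, hx, ?_⟩
    show coeffMap ψ (coeffMap ρ x) = _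
    rw [coeffMap_coeffMap, coeffMap_coeffMap, hφψ]
  | zero => rw [map_zero]; exact Submodule.zero_mem _
  | add u v _ _ hu hv => rw [map_add]; exact Submodule.add_mem _ hu hv
  | smul a u _ hu => rw [coeffMap_smul_eq]; exact Submodule.smul_mem _ _ hu

end Gauss

end Fermat.Agent.S18.RED3889
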