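import Fermat.Agent.S18.DefsMod
import Fermat.Agent.S18.RED1249.QExp
import Fermat.Agent.S18.RED3889.GaussA

/-!
# S18, package RED, R3 (helper3889): normalisation of chart-integral series
(saturation over the valuation ring `A` + Gauss normal form)

`isChartInt_exists_normalize` is the frozen statement `Fermat.Agent.S18.IsChartInt.exists_normalize`
of `Fermat/Agent/S18/Red.lean`:  for `ℓ ∤ N`, `A` over `ℓ`, and `S` one of the three charts, a nonzero
chart-integral series `y ∈ A((q))` is `C c * y'` with `c ≠ 0`, `y'` chart-integral and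
`y' mod 𝔪_A ≠ 0`.

Also exported (same hypotheses): `isChartInt_saturated` (saturation over `A`: all coefficients
divisible by `c` implies `y ∈ c • chart`), `isChartInt_iff_mem_spanA` (the chart-integral series are
the `A`-span of the `ℤ_(ℓ)`-integral `q`-expansions of the chart algebra), and the comparison maps
`phiA : ℤ_(ℓ) → A`, `psiA : 𝔽_ℓ → A/𝔪`.

No discreteness argument is needed: the abstract core is `GaussA.lean` (adapted families).
-/

set_option autoImplicit false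

noncomputable section

namespace Fermat.Agent.S18.RED3889

open ModularCurve ModularCurve.IgusaScheme Fermat.Agent.S28 Fermat.Agent.S28.QRed
  Fermat.Agent.S18.RED1249

variable (ℓ : ℕ) [Fact ℓ.Prime] (A : ValuationSubring (AlgebraicClosure ℚ))

set_option quotPrecheck false in
local notation "Rl" => ↥(GaloisRep.ratLocalizedAt ℓ)

/-! ### The maps `ℤ_(ℓ) → A` and `𝔽_ℓ → A/𝔪` -/

omit [Fact ℓ.Prime] in
theorem natCast_mem_maximalIdeal (hA : A.LiesOverPrime ℓ) :
    (ℓ : A) ∈ IsLocalRing.maximalIdeal A := by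
  have h : ((ℓ : A) : AlgebraicClosure ℚ) ∈ A.nonunits := by
    have : ((ℓ : A) : AlgebraicClosure ℚ) = (ℓ : AlgebraicClosure ℚ) := by simp
    rw [this]; exact hA
  obtain ⟨ha, hm⟩ := (ValuationSubring.mem_nonunits_iff_exists_mem_maximalIdeal).mp h
  exact hm

theorem isUnit_intCast_of_liesOver (hA : A.LiesOverPrime ℓ)
    (y : (Ideal.span {(ℓ : ℤ)}).primeCompl) : IsUnit (Int.castRingHom A y) := by
  have hy : ¬ (ℓ : ℤ) ∣ (y : ℤ) := fun h => y.2 (Ideal.mem_span_singleton.mpr h)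
  have hcop : IsCoprime (y : ℤ) (ℓ : ℤ) := by
    rw [isCoprime_comm]
    exact (Nat.prime_iff_prime_int.mp (Fact.out : ℓ.Prime)).coprime_iff_not_dvd.mpr hy
  obtain ⟨u, v, huv⟩ := hcop
  have h1 : (u : A) * ((y : ℤ) : A) + (v : A) * (ℓ : A) = 1 := by
    have := congrArg (Int.cast : ℤ → A) huv
    push_cast at this
    exact this
  have hnu : ¬ IsUnit ((v : A) * (ℓ : A)) := by
    intro h
    have h2 : IsUnit (ℓ : A) := isUnit_of_mul_isUnit_right h
    exact (IsLocalRing.mem_maximalIdeal _).mp (natCast_mem_maximalIdeal ℓ A hA) h2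
  rcases IsLocalRing.isUnit_or_isUnit_of_add_one h1 with h | h
  · exact isUnit_of_mul_isUnit_right h
  · exact absurd h hnu

/-- The canonical ring homomorphism `ℤ_(ℓ) → A` for a valuation ring `A` over `ℓ`. -/
def phiA (hA : A.LiesOverPrime ℓ) : Rl →+* A :=
  IsLocalization.lift (M := (Ideal.span {(ℓ : ℤ)}).primeCompl) (g := Int.castRingHom A)
    (isUnit_intCast_of_liesOver ℓ A hA)

theorem subtype_comp_phiA (hA : A.LiesOverPrime ℓ) :
    A.subtype.comp (phiA ℓ A hA) =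
      (algebraMap ℚ (AlgebraicClosure ℚ)).comp (GaloisRep.ratLocalizedAt ℓ).subtype :=
  IsLocalization.ringHom_ext (Ideal.span {(ℓ : ℤ)}).primeCompl (RingHom.ext_int _ _)

theorem coe_phiA (hA : A.LiesOverPrime ℓ) (x : Rl) :
    ((phiA ℓ A hA x : A) : AlgebraicClosure ℚ) = algebraMap ℚ (AlgebraicClosure ℚ) (x : ℚ) :=
  RingHom.congr_fun (subtype_comp_phiA ℓ A hA) x

theorem charP_residueField (hA : A.LiesOverPrime ℓ) : CharP (IsLocalRing.ResidueField A) ℓ := by
  have h0 : ((ℓ : ℕ) : IsLocalRing.ResidueField A) = 0 := by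
    have h1 : IsLocalRing.residue A (ℓ : A) = 0 :=
      (IsLocalRing.residue_eq_zero_iff _).mpr (natCast_mem_maximalIdeal ℓ A hA)
    rwa [map_natCast] at h1
  have h2 : ringChar (IsLocalRing.ResidueField A) ∣ ℓ := ringChar.dvd h0
  rcases (Nat.dvd_prime (Fact.out : ℓ.Prime)).mp h2 with h | h
  · exact absurd h (CharP.ringChar_ne_one)
  · rw [← h]; exact ringChar.charP _

/-- The canonical embedding `𝔽_ℓ → A/𝔪`. -/
def psiA (hA : A.LiesOverPrime ℓ) : ZMod ℓ →+* IsLocalRing.ResidueField A :=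
  haveI := charP_residueField ℓ A hA
  ZMod.castHom (dvd_refl ℓ) (IsLocalRing.ResidueField A)

theorem residue_comp_phiA (hA : A.LiesOverPrime ℓ) :
    (IsLocalRing.residue A).comp (phiA ℓ A hA) = (psiA ℓ A hA).comp (rho0 ℓ) :=
  IsLocalization.ringHom_ext (Ideal.span {(ℓ : ℤ)}).primeCompl (RingHom.ext_int _ _)

/-! ### The module of `q`-expansions of a chart -/

variable (N : ℕ) [NeZero N]

set_option quotPrecheck false in
local notation "FF" => ↥(modularFunctionFieldFull N)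

theorem qExpChart_algebraMap (S : Set FF)
    (hS : ∀ s ∈ S, ∃ a : LaurentSeries Rl, iota ℓ a = valF N s) (r : Rl) :
    qExpChart ℓ N S hS (algebraMap Rl (chartAlg N ℓ S) r) = HahnSeries.C r := by
  apply qExpChart_eq_of_iota_eq
  rw [iota_C]
  exact (valF_algebraMap N ℓ r).symm

/-- The `ℤ_(ℓ)`-module of `q`-expansions of the chart algebra `chartAlg N ℓ S`. -/
def qM (S : Set FF) (hS : ∀ s ∈ S, ∃ a : LaurentSeries Rl, iota ℓ a = valF N s) :
    Submodule Rl (LaurentSeries Rl) where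
  carrier := Set.range (qExpChart ℓ N S hS)
  add_mem' := by
    rintro _ _ ⟨x, rfl⟩ ⟨y, rfl⟩
    exact ⟨x + y, map_add _ _ _⟩
  zero_mem' := ⟨0, map_zero _⟩
  smul_mem' := by
    rintro r _ ⟨x, rfl⟩
    refine ⟨algebraMap Rl (chartAlg N ℓ S) r * x, ?_⟩
    rw [map_mul, qExpChart_algebraMap, HahnSeries.C_mul_eq_smul]

theorem mem_qM {S : Set FF} {hS : ∀ s ∈ S, ∃ a : LaurentSeries Rl, iota ℓ a = valF N s}
    {a : LaurentSeries Rl} : a ∈ qM ℓ N S hS ↔ ∃ x : chartAlg N ℓ S, qExpChart ℓ N S hS x = a :=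
  Iff.rfl

/-- Saturation `(*)` of the module of `q`-expansions, from `ker (red ∘ qExp) = (ℓ)`. -/
theorem qM_saturated (S : Set FF)
    (hS : ∀ s ∈ S, ∃ a : LaurentSeries Rl, iota ℓ a = valF N s)
    (hker : RingHom.ker ((red ℓ).comp (qExpChart ℓ N S hS)) =
      Ideal.span {(ℓ : chartAlg N ℓ S)}) :
    ∀ x ∈ qM ℓ N S hS, coeffMap (rho0 ℓ) x = 0 → ∃ y ∈ qM ℓ N S hS, x = lR ℓ • y := by
  rintro _ ⟨u, rfl⟩ hred
  have hu : u ∈ RingHom.ker ((red ℓ).comp (qExpChart ℓ N S hS)) := hred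
  rw [hker, Ideal.mem_span_singleton'] at hu
  obtain ⟨u', rfl⟩ := hu
  refine ⟨qExpChart ℓ N S hS u', ⟨u', rfl⟩, ?_⟩
  rw [map_mul, map_natCast, ← lW_eq_natCast, lW, mul_comm, HahnSeries.C_mul_eq_smul]

variable {ℓ A N}

theorem coeffMap_subtype_phiA_qExpChart (hA : A.LiesOverPrime ℓ) (S : Set FF)
    (hS : ∀ s ∈ S, ∃ a : LaurentSeries Rl, iota ℓ a = valF N s) (x : chartAlg N ℓ S) :
    coeffMap A.subtype (coeffMap (phiA ℓ A hA) (qExpChart ℓ N S hS x)) =
      coeffEmb (AlgebraicClosure ℚ) ((x : FF) : LaurentSeries ℚ) := by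
  rw [coeffMap_coeffMap, subtype_comp_phiA, ← coeffMap_coeffMap]
  show coeffEmb (AlgebraicClosure ℚ) (iota ℓ (qExpChart ℓ N S hS x)) = _
  rw [iota_qExpChart]
  rfl

theorem coeffMap_subtype_smul (a : A) (z : LaurentSeries A) :
    coeffMap A.subtype (a • z) = a • coeffMap A.subtype z := by
  ext n
  rfl

/-- The chart-integral series are exactly the `A`-span of the `q`-expansions of the chart
algebra. -/
theorem isChartInt_iff_mem_spanA (hA : A.LiesOverPrime ℓ) (S : Set FF)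
    (hS : ∀ s ∈ S, ∃ a : LaurentSeries Rl, iota ℓ a = valF N s) (y : LaurentSeries A) :
    IsChartInt ℓ A N S y ↔ y ∈ spanA A (phiA ℓ A hA) (qM ℓ N S hS) := by
  have hinj : Function.Injective (coeffMap A.subtype) :=
    coeffMap_injective_of_injective _ Subtype.val_injective
  constructor
  · intro hy
    have key : ∀ w ∈ chartSpan ℓ A N S,
        ∃ z ∈ spanA A (phiA ℓ A hA) (qM ℓ N S hS), coeffMap A.subtype z = w := by
      intro w hw
      induction hw using Submodule.span_induction with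
      | mem w hw =>
        obtain ⟨x, rfl⟩ := hw
        exact ⟨_, coeffMap_mem_spanA ⟨x, rfl⟩, coeffMap_subtype_phiA_qExpChart hA S hS x⟩
      | zero => exact ⟨0, Submodule.zero_mem _, map_zero _⟩
      | add u v _ _ hu hv =>
        obtain ⟨z₁, hz₁, rfl⟩ := hu
        obtain ⟨z₂, hz₂, rfl⟩ := hv
        exact ⟨z₁ + z₂, Submodule.add_mem _ hz₁ hz₂, map_add _ _ _⟩
      | smul a u _ hu =>
        obtain ⟨z₁, hz₁, rfl⟩ := hu
        exact ⟨a • z₁, Submodule.smul_mem _ _ hz₁, coeffMap_subtype_smul a z₁⟩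
    obtain ⟨z, hz, hzy⟩ := key _ hy
    rw [← hinj hzy]
    exact hz
  · intro hy
    show coeffMap A.subtype y ∈ chartSpan ℓ A N S
    induction hy using Submodule.span_induction with
    | mem z hz =>
      obtain ⟨_, ⟨x, rfl⟩, rfl⟩ := hz
      rw [coeffMap_subtype_phiA_qExpChart hA S hS x]
      exact Submodule.subset_span ⟨x, rfl⟩
    | zero => rw [map_zero]; exact Submodule.zero_mem _
    | add u v _ _ hu hv => rw [map_add]; exact Submodule.add_mem _ hu hv
    | smul a u _ hu => rw [coeffMap_subtype_smul]; exact Submodule.smul_mem _ _ hu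

/-- Normalisation for a chart with integral generators and saturated `q`-expansions. -/
theorem exists_normalize_of_ker (hA : A.LiesOverPrime ℓ) (S : Set FF)
    (hS : ∀ s ∈ S, ∃ a : LaurentSeries Rl, iota ℓ a = valF N s)
    (hker : RingHom.ker ((red ℓ).comp (qExpChart ℓ N S hS)) =
      Ideal.span {(ℓ : chartAlg N ℓ S)})
    {y : LaurentSeries A} (hy : IsChartInt ℓ A N S y) (hy0 : y ≠ 0) :
    ∃ (c : A) (y' : LaurentSeries A), c ≠ 0 ∧ IsChartInt ℓ A N S y' ∧
      y = HahnSeries.C c * y' ∧ coeffMap (IsLocalRing.residue A) y' ≠ 0 := by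
  obtain ⟨c, z₁, hc, hz₁, hyz, hred⟩ :=
    exists_gauss_form (rho0 ℓ) A (phiA ℓ A hA) (psiA ℓ A hA) (rho0_surjective ℓ) (lR ℓ)
      (lR_ne_zero ℓ) (rho0_lR ℓ) (residue_comp_phiA ℓ A hA) (qM ℓ N S hS)
      (qM_saturated ℓ N S hS hker) y ((isChartInt_iff_mem_spanA hA S hS y).mp hy) hy0
  exact ⟨c, z₁, hc, (isChartInt_iff_mem_spanA hA S hS z₁).mpr hz₁,
    by rw [hyz, HahnSeries.C_mul_eq_smul], hred⟩

/-- Saturation over `A` for a chart with integral generators and saturated `q`-expansions. -/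
theorem saturated_of_ker (hA : A.LiesOverPrime ℓ) (S : Set FF)
    (hS : ∀ s ∈ S, ∃ a : LaurentSeries Rl, iota ℓ a = valF N s)
    (hker : RingHom.ker ((red ℓ).comp (qExpChart ℓ N S hS)) =
      Ideal.span {(ℓ : chartAlg N ℓ S)})
    {y : LaurentSeries A} (hy : IsChartInt ℓ A N S y) (c : A) (hc : ∀ n, c ∣ y.coeff n) :
    ∃ y' : LaurentSeries A, IsChartInt ℓ A N S y' ∧ y = HahnSeries.C c * y' := by
  obtain ⟨z₁, hz₁, hyz⟩ :=
    saturated_span (rho0 ℓ) A (phiA ℓ A hA) (psiA ℓ A hA) (rho0_surjective ℓ) (lR ℓ)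
      (lR_ne_zero ℓ) (rho0_lR ℓ) (residue_comp_phiA ℓ A hA) (qM ℓ N S hS)
      (qM_saturated ℓ N S hS hker) y ((isChartInt_iff_mem_spanA hA S hS y).mp hy) c hc
  exact ⟨z₁, (isChartInt_iff_mem_spanA hA S hS z₁).mpr hz₁,
    by rw [hyz, HahnSeries.C_mul_eq_smul]⟩

/-- **R3** (`Fermat.Agent.S18.IsChartInt.exists_normalize` of the frozen `Red.lean`).
A nonzero chart-integral series is `c` times a chart-integral series with NONZERO reduction. -/
theorem isChartInt_exists_normalize (hℓN : ¬ ℓ ∣ N) (hA : A.LiesOverPrime ℓ)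
    {S : Set ↥(modularFunctionFieldFull N)}
    (hS : S = {jFull N} ∨ S = {(jFull N)⁻¹} ∨ S = {jFull N, (jFull N)⁻¹})
    {y : LaurentSeries A} (hy : IsChartInt ℓ A N S y) (hy0 : y ≠ 0) :
    ∃ (c : A) (y' : LaurentSeries A), c ≠ 0 ∧ IsChartInt ℓ A N S y' ∧
      y = HahnSeries.C c * y' ∧ coeffMap (IsLocalRing.residue A) y' ≠ 0 := by
  rcases hS with rfl | rfl | rfl
  · exact exists_normalize_of_ker hA _ (hS_fin ℓ N) (ker_red_qExpFin ℓ N hℓN) hy hy0
  · exact exists_normalize_of_ker hA _ (hS_inf ℓ N) (ker_red_qExpInf ℓ N hℓN) hy hy0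
  · exact exists_normalize_of_ker hA _ (hS_mid ℓ N) (ker_red_qExpMid ℓ N hℓN) hy hy0

/-- **Saturation over `A`** on the three charts: a chart-integral series all of whose
coefficients are divisible by `c ∈ A` is `c` times a chart-integral series. -/
theorem isChartInt_saturated (hℓN : ¬ ℓ ∣ N) (hA : A.LiesOverPrime ℓ)
    {S : Set ↥(modularFunctionFieldFull N)}
    (hS : S = {jFull N} ∨ S = {(jFull N)⁻¹} ∨ S = {jFull N, (jFull N)⁻¹})
    {y : LaurentSeries A} (hy : IsChartInt ℓ A N S y) (c : A) (hc : ∀ n, c ∣ y.coeff n) :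
    ∃ y' : LaurentSeries A, IsChartInt ℓ A N S y' ∧ y = HahnSeries.C c * y' := by
  rcases hS with rfl | rfl | rfl
  · exact saturated_of_ker hA _ (hS_fin ℓ N) (ker_red_qExpFin ℓ N hℓN) hy c hc
  · exact saturated_of_ker hA _ (hS_inf ℓ N) (ker_red_qExpInf ℓ N hℓN) hy c hc
  · exact saturated_of_ker hA _ (hS_mid ℓ N) (ker_red_qExpMid ℓ N hℓN) hy c hc

end Fermat.Agent.S18.RED3889
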